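import Mathlib.RingTheory.DedekindDomain.SelmerGroup
import Mathlib.RingTheory.DedekindDomain.Factorization
import Mathlib.RingTheory.ClassGroup.Basic

/-!
# Orders at the primes of a Dedekind domain

The normalised order `ord v` on `Kˣ`, its relation with valuations and divisors, and the fact
that the class number times any divisor is principal (`exists_ord_eq_card_mul`).
-/

set_option autoImplicit false

open IsDedekindDomain nonZeroDivisors WithZero
open FractionalIdeal (spanSingleton count)

namespace Fermat.Agent.GlobalUnits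

variable {R : Type*} [CommRing R] [IsDedekindDomain R] {K : Type*} [Field K] [Algebra R K]
  [IsFractionRing R K]

/-- The normalised order at `v`, as an additive homomorphism on `Kˣ`. -/
noncomputable def ord (v : HeightOneSpectrum R) : Additive Kˣ →+ ℤ :=
  -(v.valuationOfNeZero (K := K)).toAdditiveLeft

/-- The valuation in terms of `ord`. -/
theorem valuation_eq_exp_neg_ord (v : HeightOneSpectrum R) (x : Kˣ) :
    v.valuation K (x : K) = exp (-ord v (Additive.ofMul x)) := by
  rw [← HeightOneSpectrum.valuationOfNeZero_eq]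
  simp [ord, exp]

/-- Valuation one means order zero. -/
theorem valuation_eq_one_iff (v : HeightOneSpectrum R) (x : Kˣ) :
    v.valuation K (x : K) = 1 ↔ ord v (Additive.ofMul x) = 0 := by
  rw [valuation_eq_exp_neg_ord, exp_eq_one, neg_eq_zero]

theorem count_spanSingleton (v : HeightOneSpectrum R) (x : Kˣ) :
    count K v (spanSingleton R⁰ (x : K)) = ord v (Additive.ofMul x) := by
  classical
  set nd := IsLocalization.sec R⁰ (x : K) with hnd
  have hx : (spanSingleton R⁰ (x : K)) ≠ 0 :=
    FractionalIdeal.spanSingleton_ne_zero_iff.mpr x.ne_zero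
  have h : spanSingleton R⁰ (x : K) =
      spanSingleton R⁰ (algebraMap R K (nd.2 : R))⁻¹ * ↑(Ideal.span {nd.1} : Ideal R) := by
    rw [FractionalIdeal.coeIdeal_span_singleton, FractionalIdeal.spanSingleton_mul_spanSingleton]
    congr 1
    have h0 : algebraMap R K (nd.2 : R) ≠ 0 :=
      IsFractionRing.to_map_ne_zero_of_mem_nonZeroDivisors nd.2.2
    rw [eq_inv_mul_iff_mul_eq₀ h0, mul_comm]
    exact IsLocalization.sec_spec R⁰ (x : K)
  rw [FractionalIdeal.count_well_defined K v hx h]
  simp [ord, HeightOneSpectrum.valuationOfNeZero, HeightOneSpectrum.valuationOfNeZeroToFun,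
    MonoidHom.toAdditiveLeft, ← hnd, Associates.factors_mk]
  ring

/-- An element has non zero order at finitely many primes. -/
theorem finite_ord_ne_zero (x : Kˣ) :
    {v : HeightOneSpectrum R | ord v (Additive.ofMul x) ≠ 0}.Finite := by
  have h := FractionalIdeal.finite_factors (K := K) (spanSingleton R⁰ (x : K))
  rw [Filter.eventually_cofinite] at h
  refine h.subset fun v hv ↦ ?_
  simpa [count_spanSingleton] using hv

/-- The fractional ideal with prescribed orders. -/
theorem exists_unit_count_eq (f : HeightOneSpectrum R →₀ ℤ) :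
    ∃ I : (FractionalIdeal R⁰ K)ˣ, ∀ v, count K v (I : FractionalIdeal R⁰ K) = f v := by
  classical
  refine ⟨Units.mk0 (f.prod fun v e ↦ (v.asIdeal : FractionalIdeal R⁰ K) ^ e) ?_, fun v ↦
    FractionalIdeal.count_finsuppProd K v f⟩
  exact Finset.prod_ne_zero_iff.mpr fun v _ ↦
    zpow_ne_zero _ (FractionalIdeal.coeIdeal_ne_zero.mpr v.ne_bot)

/-- Ideals in one class differ by the orders of an element. -/
theorem exists_count_eq_ord_add (I J : (FractionalIdeal R⁰ K)ˣ)
    (h : ClassGroup.mk K I = ClassGroup.mk K J) :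
    ∃ x : Kˣ, ∀ v, count K v (I : FractionalIdeal R⁰ K) =
      ord v (Additive.ofMul x) + count K v (J : FractionalIdeal R⁰ K) := by
  have h1 : ClassGroup.mk K (I * J⁻¹) = 1 := by rw [map_mul, map_inv, h, mul_inv_cancel]
  obtain ⟨y, hy⟩ := (Submodule.isPrincipal_iff _).mp
    ((ClassGroup.mk_eq_one_iff (I := I * J⁻¹)).mp h1)
  have hy' : ((I * J⁻¹ : (FractionalIdeal R⁰ K)ˣ) : FractionalIdeal R⁰ K) = spanSingleton R⁰ y :=
    FractionalIdeal.coeToSubmodule_injective (by simpa using hy)
  have hy0 : y ≠ 0 := fun h0 ↦ (I * J⁻¹).ne_zero (by simp [hy', h0])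
  refine ⟨Units.mk0 y hy0, fun v ↦ ?_⟩
  have hI : (I : FractionalIdeal R⁰ K) = spanSingleton R⁰ y * J := by
    rw [← hy', ← Units.val_mul, inv_mul_cancel_right]
  rw [hI, FractionalIdeal.count_mul K v (FractionalIdeal.spanSingleton_ne_zero_iff.mpr hy0)
    J.ne_zero]
  exact congrArg (· + _) (count_spanSingleton v (Units.mk0 y hy0))

variable (R) in
/-- The `h`-th multiple of every divisor is principal. -/
theorem exists_ord_eq_card_mul (f : HeightOneSpectrum R →₀ ℤ) :
    ∃ x : Kˣ, ∀ v, ord v (Additive.ofMul x) = (Nat.card (ClassGroup R) : ℤ) * f v := by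
  obtain ⟨I, hI⟩ := exists_unit_count_eq (K := K) f
  obtain ⟨x, hx⟩ := exists_count_eq_ord_add (I ^ Nat.card (ClassGroup R)) 1
    (by rw [map_pow, map_one, pow_card_eq_one'])
  refine ⟨x, fun v ↦ ?_⟩
  have := hx v
  rw [Units.val_pow_eq_pow_val, FractionalIdeal.count_pow, hI, Units.val_one,
    FractionalIdeal.count_one, add_zero] at this
  exact this.symm

end Fermat.Agent.GlobalUnits
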