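import Mathlib.RingTheory.DedekindDomain.SInteger
import Mathlib.NumberTheory.NumberField.Units.DirichletTheorem
import Mathlib.NumberTheory.NumberField.ClassNumber
import Fermat.Agent.GlobalUnits.Ord
import Mathlib.GroupTheory.FiniteAbelian.Basic
import Mathlib.GroupTheory.Index
import Mathlib.LinearAlgebra.Dimension.Constructions
import Mathlib.Algebra.Module.Torsion.Basic
import Mathlib.LinearAlgebra.Dimension.Finite

/-!
# The `S`-unit theorem

The group of `S`-units of a number field is finitely generated of rank `r₁ + r₂ - 1 + #S`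
(`finrank_sUnits`).
-/

set_option autoImplicit false

open IsDedekindDomain NumberField Module
open scoped NumberField

namespace Fermat.Agent.GlobalUnits

section Dedekind

variable {R : Type*} [CommRing R] [IsDedekindDomain R] (K : Type*) [Field K] [Algebra R K]
  [IsFractionRing R K]

/-- The `s`-units of `K`, written additively. -/
noncomputable def sUnits (s : Finset (HeightOneSpectrum R)) : AddSubgroup (Additive Kˣ) :=
  ⨅ v ∈ (↑s : Set (HeightOneSpectrum R))ᶜ, (ord v).ker

variable {K}

/-- Membership of the `s`-units. -/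
theorem mem_sUnits {s : Finset (HeightOneSpectrum R)} {x : Additive Kˣ} :
    x ∈ sUnits K s ↔ ∀ v ∉ s, ord v x = 0 := by
  simp [sUnits, AddSubgroup.mem_iInf]

variable (K)

/-- The orders of an `s`-unit at the primes in `s`. -/
noncomputable def ordMap (s : Finset (HeightOneSpectrum R)) :
    sUnits K s →ₗ[ℤ] (s → ℤ) :=
  (AddMonoidHom.pi fun v : s ↦ (ord (v : HeightOneSpectrum R)).comp
    (sUnits K s).subtype).toIntLinearMap

theorem ordMap_apply (s : Finset (HeightOneSpectrum R)) (x : sUnits K s) (v : s) :
    ordMap K s x v = ord (v : HeightOneSpectrum R) (x : Additive Kˣ) := rfl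

/-- The units of `R` as `s`-units. -/
noncomputable def unitIncl (s : Finset (HeightOneSpectrum R)) :
    Additive Rˣ →ₗ[ℤ] sUnits K s :=
  ((Units.map (algebraMap R K).toMonoidHom).toAdditive.codRestrict (sUnits K s) fun u ↦
    mem_sUnits.mpr fun v _ ↦ (valuation_eq_one_iff v _).mp (by
      rw [← HeightOneSpectrum.valuationOfNeZero_eq]
      exact congrArg _ (v.valuation_of_unit_eq u.toMul))).toIntLinearMap

theorem unitIncl_injective (s : Finset (HeightOneSpectrum R)) :
    Function.Injective (unitIncl K s) := fun _ _ h ↦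
  Additive.toMul.injective (Units.map_injective (IsFractionRing.injective R K)
    congr(Additive.toMul (($h : sUnits K s) : Additive Kˣ)))

theorem range_unitIncl (s : Finset (HeightOneSpectrum R)) :
    LinearMap.range (unitIncl K s) = LinearMap.ker (ordMap K s) := by
  ext x
  refine ⟨?_, fun h ↦ ?_⟩
  · rintro ⟨u, rfl⟩
    rw [LinearMap.mem_ker]
    exact funext fun v ↦ (valuation_eq_one_iff (v : HeightOneSpectrum R)
      (Units.map (algebraMap R K).toMonoidHom u.toMul)).mp (by
      rw [← HeightOneSpectrum.valuationOfNeZero_eq]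
      exact congrArg _ (v.1.valuation_of_unit_eq u.toMul))
  · rw [LinearMap.mem_ker] at h
    have h1 : ∀ v : HeightOneSpectrum R,
        v.valuation K ((x : Additive Kˣ).toMul : K) = 1 := fun v ↦ by
      rw [valuation_eq_one_iff]
      by_cases hv : v ∈ s
      · exact congrFun h ⟨v, hv⟩
      · exact mem_sUnits.mp x.2 v hv
    obtain ⟨a, ha⟩ := HeightOneSpectrum.mem_integers_of_valuation_le_one K _ fun v ↦ (h1 v).le
    obtain ⟨b, hb⟩ := HeightOneSpectrum.mem_integers_of_valuation_le_one (R := R) K
      ((x : Additive Kˣ).toMul : K)⁻¹ fun v ↦ by rw [map_inv₀, h1 v, inv_one]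
    have hab : a * b = 1 := IsFractionRing.injective R K (by
      rw [map_mul, map_one, ha, hb, mul_inv_cancel₀ (Units.ne_zero _)])
    refine ⟨Additive.ofMul ⟨a, b, hab, by rwa [mul_comm]⟩, Subtype.ext ?_⟩
    exact Additive.toMul.injective (Units.ext ha)

theorem card_mul_mem_range_ordMap [Finite (ClassGroup R)] (s : Finset (HeightOneSpectrum R))
    (f : s → ℤ) : (Nat.card (ClassGroup R) : ℤ) • f ∈ LinearMap.range (ordMap K s) := by
  classical
  obtain ⟨x, hx⟩ := exists_ord_eq_card_mul (K := K) R
    (Finsupp.onFinset s (fun v ↦ if hv : v ∈ s then f ⟨v, hv⟩ else 0) fun v hv ↦ by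
      by_contra h
      exact hv (dif_neg h))
  refine ⟨⟨Additive.ofMul x, mem_sUnits.mpr fun v hv ↦ ?_⟩, funext fun v ↦ ?_⟩
  · rw [hx, Finsupp.onFinset_apply, dif_neg hv, mul_zero]
  · rw [ordMap_apply, hx, Finsupp.onFinset_apply, dif_pos v.2, Pi.smul_apply, smul_eq_mul]

theorem finrank_range_ordMap [Finite (ClassGroup R)] (s : Finset (HeightOneSpectrum R)) :
    finrank ℤ (LinearMap.range (ordMap K s)) = s.card := by
  refine le_antisymm ((Submodule.finrank_le _).trans_eq (by simp)) ?_
  let φ : (s → ℤ) →ₗ[ℤ] LinearMap.range (ordMap K s) :=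
    LinearMap.codRestrict _ ((Nat.card (ClassGroup R) : ℤ) • LinearMap.id)
      (card_mul_mem_range_ordMap K s)
  have hφ : Function.Injective φ := fun a b h ↦ by
    refine smul_right_injective (s → ℤ) (r := (Nat.card (ClassGroup R) : ℤ))
      (by simpa using Nat.card_pos.ne') ?_
    exact congr(Subtype.val $h)
  simpa using φ.finrank_le_finrank_of_injective hφ

end Dedekind

variable (K : Type*) [Field K] [NumberField K]

instance sUnits_finite (s : Finset (HeightOneSpectrum (𝓞 K))) : Module.Finite ℤ (sUnits K s) := by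
  have h1 : Module.Finite ℤ (LinearMap.ker (ordMap K s)) := by
    rw [← range_unitIncl]
    infer_instance
  have := Module.Finite.equiv (ordMap K s).quotKerEquivRange.symm
  exact Module.Finite.of_submodule_quotient (LinearMap.ker (ordMap K s))

/-- Dirichlet's `S`-unit theorem. -/
theorem finrank_sUnits (s : Finset (HeightOneSpectrum (𝓞 K))) :
    finrank ℤ (sUnits K s) = NumberField.Units.rank K + s.card := by
  rw [← Submodule.finrank_quotient_add_finrank (LinearMap.ker (ordMap K s)),
    (ordMap K s).quotKerEquivRange.finrank_eq, finrank_range_ordMap, ← range_unitIncl,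
    LinearMap.finrank_range_of_inj (unitIncl_injective K s), NumberField.Units.finrank_eq, add_comm]

end Fermat.Agent.GlobalUnits
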