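import Fermat.Agent.GaloisBasics.Finite
import Fermat.Agent.GlobalUnits.SUnits

/-!
# Places of a number field inside `AlgebraicClosure ℚ`

The places of a number field `K` inside `AlgebraicClosure ℚ` are the valuation subrings over
primes up to conjugation over `K` (`exists_placeBelow_eq`, `placeBelow_eq_iff`).
-/

set_option autoImplicit false

open IsDedekindDomain NumberField Fermat.Agent.GaloisBasics
open scoped NumberField Pointwise

namespace Fermat.Agent.GlobalUnits

variable (K : IntermediateField ℚ Qbar) [FiniteDimensional ℚ K]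
variable {A B : ValuationSubring Qbar} {q : ℕ}

omit [FiniteDimensional ℚ K] in
/-- The ideal below a place is non zero. -/
theorem intIdeal_ne_bot (hA : A.LiesOverPrime q) (hq : q.Prime) : intIdeal K A ≠ ⊥ := fun h ↦ by
  have := natCast_mem_intIdeal K hA
  rw [h, Ideal.mem_bot, Nat.cast_eq_zero] at this
  exact hq.ne_zero this

/-- The place of `K` below a valuation subring over a prime. -/
noncomputable def placeBelow (hA : A.LiesOverPrime q) (hq : q.Prime) :
    HeightOneSpectrum (𝓞 K) :=
  ⟨intIdeal K A, intIdeal_isPrime K A, intIdeal_ne_bot K hA hq⟩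

omit [FiniteDimensional ℚ K] in
/-- The residue characteristic lies in the place below. -/
theorem natCast_mem_placeBelow (hA : A.LiesOverPrime q) (hq : q.Prime) :
    (q : 𝓞 K) ∈ (placeBelow K hA hq).asIdeal :=
  natCast_mem_intIdeal K hA

omit [FiniteDimensional ℚ K] in
/-- A place below contains only one rational prime. -/
theorem eq_of_natCast_mem_placeBelow (hA : A.LiesOverPrime q) (hq : q.Prime) {l : ℕ}
    (hl : l.Prime) (h : (l : 𝓞 K) ∈ (placeBelow K hA hq).asIdeal) : l = q := by
  have h1 : ((l : ℕ) : Qbar) ∈ A.nonunits := by simpa using (mem_intIdeal K).mp h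
  exact ((Nat.prime_dvd_prime_iff_eq hq hl).mp ((natCast_mem_nonunits_iff hA hq l).mp h1)).symm

omit [FiniteDimensional ℚ K] in
/-- Every place of `K` is below a valuation subring over a prime. -/
theorem exists_placeBelow_eq (v : HeightOneSpectrum (𝓞 K)) :
    ∃ (q : Nat.Primes) (A : ValuationSubring Qbar) (hA : A.LiesOverPrime (q : ℕ)),
      placeBelow K hA q.2 = v := by
  have hne : v.asIdeal.under ℤ ≠ ⊥ := Ideal.IsIntegral.comap_ne_bot ℤ v.ne_bot
  obtain ⟨n, hn⟩ := (IsPrincipalIdealRing.principal (v.asIdeal.under ℤ)).principal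
  have hn0 : n ≠ 0 := by rintro rfl; simp [hn] at hne
  have hp : Prime n := (Ideal.span_singleton_prime hn0).mp (by
    rw [← Ideal.submodule_span_eq, ← hn]; infer_instance)
  have hmem : ((n.natAbs : ℕ) : 𝓞 K) ∈ v.asIdeal := by
    have : n ∈ v.asIdeal.under ℤ := hn ▸ Submodule.mem_span_singleton_self n
    rw [Ideal.mem_comap, eq_intCast] at this
    rcases Int.natAbs_eq n with h | h <;> rw [h] at this
    · rwa [Int.cast_natCast] at this
    · rwa [Int.cast_neg, Int.cast_natCast, neg_mem_iff] at this
  obtain ⟨A, hA, h⟩ := exists_intIdeal_eq K (Int.prime_iff_natAbs_prime.mp hp) v.asIdeal hmem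
  exact ⟨⟨n.natAbs, Int.prime_iff_natAbs_prime.mp hp⟩, A, hA, HeightOneSpectrum.ext h⟩

/-- Integrality at the place below. -/
theorem valuation_le_one_iff (hA : A.LiesOverPrime q) (hq : q.Prime) (x : K) :
    (placeBelow K hA hq).valuation K x ≤ 1 ↔ (x : Qbar) ∈ A := by
  set v := placeBelow K hA hq with hv
  constructor
  · intro h
    obtain ⟨a, s, hs⟩ := v.exists_primeCompl_mul_eq_of_integer x h
    refine (mem_iff_exists_mul_eq hA hq).mpr
      ⟨intIncl K a, intIncl K (s : 𝓞 K), fun h' ↦ s.2 h', ?_⟩
    simpa using congrArg (fun y : K ↦ (y : Qbar)) hs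
  · intro h
    by_contra h'
    rw [not_le] at h'
    have hx0 : x ≠ 0 := by rintro rfl; simp at h'
    have hlt : v.valuation K x⁻¹ < 1 := by
      rw [map_inv₀]; exact inv_lt_one_of_one_lt₀ h'
    obtain ⟨a, s, hs⟩ := v.exists_primeCompl_mul_eq_of_integer x⁻¹ hlt.le
    have ha : a ∈ v.asIdeal := by
      rw [← HeightOneSpectrum.valuation_lt_one_iff_mem (K := K)]
      change v.valuation K (algebraMap (𝓞 K) K a) < 1
      rw [← hs, map_mul,
        (HeightOneSpectrum.valuation_eq_one_iff_notMem (K := K) v).mpr s.2, mul_one]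
      exact hlt
    refine s.2 ((mem_intIdeal K).mpr ?_)
    have hs' : ((algebraMap (𝓞 K) K (s : 𝓞 K) : K) : Qbar) =
        (x : Qbar) * ((algebraMap (𝓞 K) K a : K) : Qbar) := by
      rw [← hs]
      simp [hx0]
    have := Ideal.mul_mem_left (IsLocalRing.maximalIdeal A) ⟨_, h⟩
      (show (⟨_, coe_mem A (intIncl K a)⟩ : A) ∈ IsLocalRing.maximalIdeal A from
        ValuationSubring.coe_mem_nonunits_iff.mp (by simpa using (mem_intIdeal K).mp ha))
    rw [← ValuationSubring.coe_mem_nonunits_iff] at this
    simpa [hs'] using this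

/-- Comparison of valuations at the place below. -/
theorem valuation_le_iff (hA : A.LiesOverPrime q) (hq : q.Prime) (x y : K) :
    (placeBelow K hA hq).valuation K x ≤ (placeBelow K hA hq).valuation K y ↔
      A.valuation (x : Qbar) ≤ A.valuation (y : Qbar) := by
  rcases eq_or_ne y 0 with rfl | hy
  · simp
  · have h1 : (placeBelow K hA hq).valuation K x ≤ (placeBelow K hA hq).valuation K y ↔
        (placeBelow K hA hq).valuation K (x / y) ≤ 1 := by
      rw [map_div₀, div_le_one₀ (zero_lt_iff.mpr (by simpa using hy))]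
    rw [h1, valuation_le_one_iff, IntermediateField.coe_div, ← A.valuation_le_one_iff, map_div₀,
      div_le_one₀ (zero_lt_iff.mpr (by simpa using hy))]

theorem valuation_eq_iff (hA : A.LiesOverPrime q) (hq : q.Prime) (x y : K) :
    (placeBelow K hA hq).valuation K x = (placeBelow K hA hq).valuation K y ↔
      A.valuation (x : Qbar) = A.valuation (y : Qbar) := by
  simp only [le_antisymm_iff, valuation_le_iff]

/-- Order zero at the place below means a unit at the place. -/
theorem ord_eq_zero_iff (hA : A.LiesOverPrime q) (hq : q.Prime) (x : Kˣ) :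
    ord (placeBelow K hA hq) (Additive.ofMul x) = 0 ↔ A.valuation ((x : K) : Qbar) = 1 := by
  rw [← valuation_eq_one_iff, ← map_one ((placeBelow K hA hq).valuation K), valuation_eq_iff,
    IntermediateField.coe_one, map_one]

/-- Equal orders at the place below mean equal valuations. -/
theorem ord_eq_iff (hA : A.LiesOverPrime q) (hq : q.Prime) (x y : Kˣ) :
    ord (placeBelow K hA hq) (Additive.ofMul x) = ord (placeBelow K hA hq) (Additive.ofMul y) ↔
      A.valuation ((x : K) : Qbar) = A.valuation ((y : K) : Qbar) := by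
  rw [← valuation_eq_iff K hA hq, valuation_eq_exp_neg_ord, valuation_eq_exp_neg_ord,
    WithZero.exp_inj, neg_inj]

omit [FiniteDimensional ℚ K] in
/-- Two valuation subrings lie over the same place of `K` iff they are conjugate over `K`. -/
theorem placeBelow_eq_iff {l : ℕ} (hA : A.LiesOverPrime q) (hq : q.Prime)
    (hB : B.LiesOverPrime l) (hl : l.Prime) :
    placeBelow K hA hq = placeBelow K hB hl ↔ ∃ τ ∈ K.fixingSubgroup, τ • A = B := by
  constructor
  · intro h
    refine exists_smul_eq_of_fixed hA hq _ (InfiniteGalois.fixingSubgroup_isClosed K) fun b hb ↦ ?_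
    obtain ⟨a, rfl⟩ := (fixed_iff_mem_range_intIncl K b).mp hb
    rw [mem_zbarIdeal, mem_zbarIdeal, coe_intIncl, ← mem_intIdeal, ← mem_intIdeal]
    exact SetLike.ext_iff.mp (congrArg HeightOneSpectrum.asIdeal h) a
  · rintro ⟨τ, hτ, rfl⟩
    refine HeightOneSpectrum.ext (Ideal.ext fun a ↦ ?_)
    change a ∈ intIdeal K A ↔ a ∈ intIdeal K (τ • A)
    rw [mem_intIdeal, mem_intIdeal, mem_nonunits_smul_iff, AlgEquiv.aut_inv]
    rw [show τ.symm ((a : K) : Qbar) = ((a : K) : Qbar) from
      (IntermediateField.mem_fixingSubgroup_iff K _).mp (inv_mem hτ) _ (a : K).2]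

/-- Finitely many primes lie over a finite set of rational primes. -/
theorem finite_setOf_exists_natCast_mem (T : Finset Nat.Primes) :
    {v : HeightOneSpectrum (𝓞 K) | ∃ q ∈ T, ((q : ℕ) : 𝓞 K) ∈ v.asIdeal}.Finite := by
  refine (T.finite_toSet.biUnion fun q _ ↦ Ideal.finite_factors
    (I := Ideal.span {((q : ℕ) : 𝓞 K)}) ?_).subset ?_
  · simpa using q.2.ne_zero
  · rintro v ⟨q, hq, hv⟩
    exact Set.mem_biUnion hq (Ideal.dvd_span_singleton.mpr hv)

/-- The places of `K` above a finite set of primes. -/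
noncomputable def placesOver (T : Finset Nat.Primes) : Finset (HeightOneSpectrum (𝓞 K)) :=
  (finite_setOf_exists_natCast_mem K T).toFinset

/-- Membership of `placesOver`. -/
theorem mem_placesOver {T : Finset Nat.Primes} {v : HeightOneSpectrum (𝓞 K)} :
    v ∈ placesOver K T ↔ ∃ q ∈ T, ((q : ℕ) : 𝓞 K) ∈ v.asIdeal := by
  simp [placesOver]

/-- The place below lies over `T` when its residue characteristic does. -/
theorem placeBelow_mem_placesOver_iff {T : Finset Nat.Primes} (q : Nat.Primes)
    (hA : A.LiesOverPrime (q : ℕ)) : placeBelow K hA q.2 ∈ placesOver K T ↔ q ∈ T := by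
  rw [mem_placesOver]
  refine ⟨?_, fun h ↦ ⟨q, h, natCast_mem_placeBelow K hA q.2⟩⟩
  rintro ⟨l, hl, h⟩
  rwa [← Nat.Primes.coe_nat_injective (eq_of_natCast_mem_placeBelow K hA q.2 l.2 h)]

end Fermat.Agent.GlobalUnits
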