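import Fermat.Prelude.Def_GroupCohomology_ContinuousUnramified
import Fermat.Agent.GlobalUnits.Places

/-!
# Roots unramified outside `S`

Adjoining an `n`-th root whose valuations outside `S` come from the ground field preserves being
unramified outside `S` (`isUnramifiedOutside_sup_adjoin`).
-/

set_option autoImplicit false

open IsDedekindDomain NumberField Fermat.Agent.GaloisBasics IntermediateField
open scoped NumberField Pointwise

namespace Fermat.Agent.GlobalUnits

/-- A root of unity of order prime to the residue characteristic and congruent to one is one. -/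
theorem eq_one_of_pow_eq_one_of_sub_mem {A : ValuationSubring Qbar} {n : ℕ}
    (hn : A.valuation (n : Qbar) = 1) {z : A} (hz : z ^ n = 1)
    (hmem : z - 1 ∈ IsLocalRing.maximalIdeal A) : z = 1 := by
  have hsum : (∑ i ∈ Finset.range n, z ^ i) * (z - 1) = 0 := by rw [geom_sum_mul, hz, sub_self]
  have hu : IsUnit (∑ i ∈ Finset.range n, z ^ i) := by
    rw [← IsLocalRing.residue_ne_zero_iff_isUnit, map_sum]
    have hr : IsLocalRing.residue A z = 1 := by
      rwa [← sub_eq_zero, ← map_one (IsLocalRing.residue A), ← map_sub,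
        IsLocalRing.residue_eq_zero_iff]
    simp only [map_pow, hr, one_pow, Finset.sum_const, Finset.card_range, nsmul_eq_mul, mul_one]
    rw [← map_natCast (IsLocalRing.residue A), IsLocalRing.residue_ne_zero_iff_isUnit,
      ValuationSubring.valuation_eq_one_iff]
    simpa using hn
  exact sub_eq_zero.mp (hu.mul_right_eq_zero.mp hsum)

/-- An `n`-th root with the valuation of an element of the ground field is fixed by inertia. -/
theorem inertia_apply_eq_of_valuation_eq {A : ValuationSubring Qbar} {σ : GalQ} {n : ℕ}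
    (hn : A.valuation (n : Qbar) = 1) (hσ : σ ∈ A.inertiaSubgroupIn ℚ) {y z : Qbar}
    (hz : σ z = z) (hy : σ (y ^ n) = y ^ n) (hv : A.valuation y = A.valuation z) :
    σ y = y := by
  rcases eq_or_ne z 0 with rfl | hz0
  · rw [map_zero, Valuation.zero_iff] at hv
    rw [hv, map_zero]
  have hy0 : y ≠ 0 := by
    rintro rfl
    rw [map_zero, eq_comm, Valuation.zero_iff] at hv
    exact hz0 hv
  set u := y / z with hu
  have hu1 : A.valuation u = 1 := by
    rw [hu, map_div₀, hv, div_self (by simpa using hz0)]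
  have hu0 : u ≠ 0 := div_ne_zero hy0 hz0
  have huA : u ∈ A := (A.valuation_le_one_iff _).mp hu1.le
  obtain ⟨hσD, hσ'⟩ := mem_inertiaSubgroupIn_iff.mp hσ
  have huu : IsUnit (⟨u, huA⟩ : A) := (ValuationSubring.valuation_eq_one_iff A _).mpr hu1
  obtain ⟨w, hw⟩ := huu
  let a : A := ⟨σ u, (apply_mem_iff hσD u).mpr huA⟩
  have ha : a - (w : A) ∈ IsLocalRing.maximalIdeal A := by
    rw [← ValuationSubring.coe_mem_nonunits_iff, hw]
    exact hσ' u huA
  have hzeta : a * ↑w⁻¹ - 1 ∈ IsLocalRing.maximalIdeal A := by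
    have := Ideal.mul_mem_right (↑w⁻¹ : A) _ ha
    rwa [sub_mul, Units.mul_inv] at this
  have hpow : (a * ↑w⁻¹ : A) ^ n = 1 := by
    have h1 : a ^ n = (w : A) ^ n := Subtype.ext (by
      rw [hw]
      change σ u ^ n = u ^ n
      rw [← map_pow, hu, div_pow, map_div₀, hy, map_pow, hz])
    rw [mul_pow, h1, ← mul_pow, Units.mul_inv, one_pow]
  have hone := eq_one_of_pow_eq_one_of_sub_mem hn hpow hzeta
  rw [Units.mul_inv_eq_one, hw] at hone
  have : σ u = u := congr(($hone : Qbar))
  rw [hu, map_div₀, hz] at this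
  exact (div_left_inj' hz0).mp this

variable {S : Finset Nat.Primes} {K : IntermediateField ℚ Qbar}

/-- Adjoining an `n`-th root whose valuations outside `S` come from `K` preserves being
unramified outside `S`, if all primes dividing `n` lie in `S`. -/
theorem isUnramifiedOutside_sup_adjoin {n : ℕ}
    (hnS : ∀ q : Nat.Primes, (q : ℕ) ∣ n → q ∈ S) (hK : K.IsUnramifiedOutside S)
    {y : Qbar} (hy : y ^ n ∈ K)
    (hval : ∀ q : Nat.Primes, q ∉ S → ∀ A : ValuationSubring Qbar, A.LiesOverPrime (q : ℕ) →
      ∃ z ∈ K, A.valuation y = A.valuation z) :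
    (K ⊔ ℚ⟮y⟯).IsUnramifiedOutside S := by
  have := hK.1
  have : FiniteDimensional ℚ ℚ⟮y⟯ :=
    IntermediateField.adjoin.finiteDimensional (Algebra.IsAlgebraic.isAlgebraic y).isIntegral
  refine ⟨IntermediateField.finiteDimensional_sup K ℚ⟮y⟯, fun q hq A hA σ hσ ↦ ?_⟩
  rw [IntermediateField.fixingSubgroup_sup]
  have hσK := hK.2 q hq A hA hσ
  refine ⟨hσK, ?_⟩
  obtain ⟨z, hzK, hz⟩ := hval q hq A hA
  have hnv : A.valuation (n : Qbar) = 1 := by
    have h1 : (n : Qbar) ∉ A.nonunits := fun h ↦
      hq (hnS q ((natCast_mem_nonunits_iff hA q.2 n).mp h))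
    rw [ValuationSubring.mem_nonunits_iff, not_lt] at h1
    refine le_antisymm ?_ h1
    exact (A.valuation_le_one_iff _).mpr (natCast_mem A n)
  have hfix := inertia_apply_eq_of_valuation_eq hnv hσ
    ((IntermediateField.mem_fixingSubgroup_iff K σ).mp hσK z hzK)
    ((IntermediateField.mem_fixingSubgroup_iff K σ).mp hσK _ hy) hz
  have hle : ℚ⟮y⟯ ≤ IntermediateField.fixedField (Subgroup.zpowers σ) := by
    rw [IntermediateField.adjoin_simple_le_iff, IntermediateField.mem_fixedField_iff]
    intro g hg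
    obtain ⟨k, rfl⟩ := Subgroup.mem_zpowers_iff.mp hg
    exact zpow_mem (show σ ∈ MulAction.stabilizer GalQ y from hfix) k
  exact IntermediateField.fixingSubgroup_antitone hle fun x ↦ x.2 ⟨σ, Subgroup.mem_zpowers σ⟩

end Fermat.Agent.GlobalUnits
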