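import Fermat.Agent.GlobalUnits.Places

/-!
# Weak approximation

Weak approximation at finitely many primes of a Dedekind domain.
-/

set_option autoImplicit false

open IsDedekindDomain NumberField WithZero Fermat.Agent.GaloisBasics
open scoped NumberField nonZeroDivisors

namespace Fermat.Agent.GlobalUnits

variable {R : Type*} [CommRing R] [IsDedekindDomain R] {K : Type*} [Field K] [Algebra R K]
  [IsFractionRing R K]

/-- Weak approximation: prescribed targets to any precision at finitely many places. -/
theorem exists_forall_valuation_sub_le (s : Finset (HeightOneSpectrum R))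
    (a : HeightOneSpectrum R → K) (N : HeightOneSpectrum R → ℕ) :
    ∃ x : K, ∀ v ∈ s, v.valuation K (x - a v) ≤ exp (-(N v : ℤ)) := by
  classical
  obtain ⟨d, hd⟩ := IsLocalization.exist_integer_multiples R⁰ s a
  choose b hb using hd
  have hd0 : algebraMap R K (d : R) ≠ 0 :=
    IsFractionRing.to_map_ne_zero_of_mem_nonZeroDivisors d.2
  let du : Kˣ := Units.mk0 _ hd0
  obtain ⟨y, hy⟩ := IsDedekindDomain.exists_forall_sub_mem_ideal (R := R)
    (fun v : HeightOneSpectrum R ↦ v.asIdeal)
    (fun v ↦ N v + (ord v (Additive.ofMul du)).toNat) (s := s) (fun v _ ↦ v.prime)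
    (fun v _ w _ h ↦ fun he ↦ h (HeightOneSpectrum.ext he)) (fun v ↦ b v.1 v.2)
  refine ⟨algebraMap R K y / algebraMap R K (d : R), fun v hv ↦ ?_⟩
  have h := (v.intValuation_le_pow_iff_mem _ _).mpr (hy v hv)
  rw [← v.valuation_of_algebraMap (K := K)] at h
  change v.valuation K (algebraMap R K (y - b v hv)) ≤ _ at h
  rw [map_sub, hb v hv, Algebra.smul_def] at h
  have hbd : v.valuation K (algebraMap R K (d : R)) = exp (-ord v (Additive.ofMul du)) :=
    valuation_eq_exp_neg_ord v du
  have hnn : 0 ≤ ord v (Additive.ofMul du) := by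
    have := (v.valuation_le_one (K := K) (d : R))
    rw [hbd, ← exp_zero, exp_le_exp] at this
    linarith
  rw [show algebraMap R K y / algebraMap R K (d : R) - a v =
      (algebraMap R K y - algebraMap R K (d : R) * a v) / algebraMap R K (d : R) by field_simp,
    map_div₀, hbd, div_le_iff₀ exp_pos, ← exp_add]
  refine h.trans (le_of_eq ?_)
  rw [Nat.cast_add, Int.toNat_of_nonneg hnn, neg_add]

/-- Weak approximation with nonzero precisions. -/
theorem exists_forall_valuation_sub_le_units (s : Finset (HeightOneSpectrum R))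
    (a : HeightOneSpectrum R → K) (ε : HeightOneSpectrum R → Kˣ) :
    ∃ x : K, ∀ v ∈ s, v.valuation K (x - a v) ≤ v.valuation K (ε v : K) := by
  obtain ⟨x, hx⟩ := exists_forall_valuation_sub_le s a
    fun v ↦ (ord v (Additive.ofMul (ε v))).toNat
  refine ⟨x, fun v hv ↦ (hx v hv).trans ?_⟩
  rw [valuation_eq_exp_neg_ord, exp_le_exp]
  omega

end Fermat.Agent.GlobalUnits
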